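import Mathlib
import Fermat.Agent.LT.T6.SpecArch
import Fermat.Agent.LT.T6.Inf.Spec

/-!
# Row LT, sub-tower T6inf (helper19): closed form of `T6.sphC`, leaf T6inf.07 `Sph0ParamC`

OFF-MAIN.  Mathlib + `T6/SpecArch.lean` + `T6/Inf/Spec.lean` only.

* `sphC_cosh19`      : `sphC ν (cosh d) = sinh (ν d) / (ν sinh d)` for `ν ≠ 0`, `d > 0`;
* `sphC_zero_cosh19` : `sphC 0 (cosh d) = d / sinh d` for `d > 0`;
* `sph0ParamC19`     : `Inf.Sph0ParamC`.
-/

set_option autoImplicit false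

open MeasureTheory

noncomputable section

namespace Fermat.Agent.LT.T6.Inf.H19

open Fermat.Agent.LT.T6

theorem sqrt_cosh_sq_sub_one19 {d : ℝ} (hd : 0 < d) :
    Real.sqrt (Real.cosh d ^ 2 - 1) = Real.sinh d := by
  have h : Real.cosh d ^ 2 - 1 = Real.sinh d ^ 2 := by
    have := Real.cosh_sq d
    linarith
  rw [h, Real.sqrt_sq (le_of_lt (Real.sinh_pos_iff.mpr hd))]

theorem cosh_add_sinh19 (d : ℝ) : Real.cosh d + Real.sinh d = Real.exp d := Real.cosh_add_sinh d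

theorem cosh_sub_sinh19 (d : ℝ) : Real.cosh d - Real.sinh d = Real.exp (-d) :=
  Real.cosh_sub_sinh d

theorem ofReal_exp_cpow19 (d : ℝ) (w : ℂ) :
    ((Real.exp d : ℝ) : ℂ) ^ w = Complex.exp ((d : ℂ) * w) := by
  have hne : ((Real.exp d : ℝ) : ℂ) ≠ 0 := by
    exact_mod_cast (Real.exp_pos d).ne'
  rw [Complex.cpow_def_of_ne_zero hne, ← Complex.ofReal_log (Real.exp_pos d).le, Real.log_exp]

/-- The integral defining `sphC`, after the substitution `y = ρ + x σ`. -/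
theorem sphC_eq_integral19 (ν : ℂ) {d : ℝ} (hd : 0 < d) :
    sphC ν (Real.cosh d) = (1 / 2 : ℂ) * (((Real.sinh d : ℝ) : ℂ)⁻¹ *
      ∫ y in Real.exp (-d)..Real.exp d, ((y : ℝ) : ℂ) ^ (-1 - ν)) := by
  have hs : Real.sinh d ≠ 0 := (Real.sinh_pos_iff.mpr hd).ne'
  unfold sphC
  rw [sqrt_cosh_sq_sub_one19 hd]
  congr 1
  have h := intervalIntegral.integral_comp_add_mul
    (f := fun y : ℝ => ((y : ℝ) : ℂ) ^ (-1 - ν)) (a := (-1 : ℝ)) (b := 1) hs (Real.cosh d)
  have e1 : Real.cosh d + Real.sinh d * (-1 : ℝ) = Real.exp (-d) := by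
    rw [← cosh_sub_sinh19]; ring
  have e2 : Real.cosh d + Real.sinh d * (1 : ℝ) = Real.exp d := by
    rw [← cosh_add_sinh19]; ring
  rw [e1, e2] at h
  have h' : (∫ x in (-1 : ℝ)..1, ((Real.cosh d + x * Real.sinh d : ℝ) : ℂ) ^ (-1 - ν))
      = ∫ x in (-1 : ℝ)..1, ((Real.cosh d + Real.sinh d * x : ℝ) : ℂ) ^ (-1 - ν) := by
    refine intervalIntegral.integral_congr ?_
    intro x _
    simp only [mul_comm]
  rw [h', h]
  rw [Complex.real_smul, Complex.ofReal_inv]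

theorem sphC_cosh19 {ν : ℂ} (hν : ν ≠ 0) {d : ℝ} (hd : 0 < d) :
    sphC ν (Real.cosh d) = Complex.sinh (ν * (d : ℂ)) / (ν * ((Real.sinh d : ℝ) : ℂ)) := by
  have hs : ((Real.sinh d : ℝ) : ℂ) ≠ 0 := by
    exact_mod_cast (Real.sinh_pos_iff.mpr hd).ne'
  rw [sphC_eq_integral19 ν hd]
  have h0 : (0 : ℝ) ∉ Set.uIcc (Real.exp (-d)) (Real.exp d) := by
    rw [Set.uIcc_of_le (Real.exp_le_exp.mpr (by linarith))]
    intro h
    exact absurd h.1 (not_le.mpr (Real.exp_pos _))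
  have hr : (-1 - ν) ≠ -1 := by
    intro h
    apply hν
    have : ν = -1 - (-1 - ν) := by ring
    rw [this, h]; ring
  rw [integral_cpow (Or.inr ⟨hr, h0⟩)]
  have e : (-1 - ν + 1) = -ν := by ring
  rw [e, ofReal_exp_cpow19, ofReal_exp_cpow19, Complex.sinh]
  have hν' : (-ν) ≠ 0 := neg_ne_zero.mpr hν
  field_simp
  push_cast
  ring_nf

theorem sphC_zero_cosh19 {d : ℝ} (hd : 0 < d) :
    sphC 0 (Real.cosh d) = ((d / Real.sinh d : ℝ) : ℂ) := by
  have hs : Real.sinh d ≠ 0 := (Real.sinh_pos_iff.mpr hd).ne'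
  rw [sphC_eq_integral19 0 hd]
  have h1 : (∫ y in Real.exp (-d)..Real.exp d, ((y : ℝ) : ℂ) ^ (-1 - (0 : ℂ)))
      = ((∫ y in Real.exp (-d)..Real.exp d, y⁻¹ : ℝ) : ℂ) := by
    rw [← intervalIntegral.integral_ofReal]
    refine intervalIntegral.integral_congr ?_
    intro y _
    simp only [sub_zero, Complex.cpow_neg_one, Complex.ofReal_inv]
  rw [h1, integral_inv_of_pos (Real.exp_pos _) (Real.exp_pos _)]
  have h2 : Real.log (Real.exp d / Real.exp (-d)) = 2 * d := by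
    rw [← Real.exp_sub, Real.log_exp]; ring
  rw [h2]
  push_cast
  field_simp

/-- **T6inf.07** `Sph0ParamC`. -/
theorem sph0ParamC19 : Inf.Sph0ParamC := by
  intro s h
  by_contra hs
  have hz : (2 * s) ≠ 0 := mul_ne_zero two_ne_zero hs
  set z : ℂ := 2 * s with hzdef
  -- `sinh (z d) = z d` for all `d > 0`
  have key : ∀ d : ℝ, 0 < d → Complex.sinh (z * (d : ℂ)) = z * (d : ℂ) := by
    intro d hd
    have hsd : ((Real.sinh d : ℝ) : ℂ) ≠ 0 := by
      exact_mod_cast (Real.sinh_pos_iff.mpr hd).ne'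
    have h1 := h d hd
    rw [sphC_cosh19 hz hd, sphC_zero_cosh19 hd, Complex.ofReal_div,
      div_eq_div_iff (mul_ne_zero hz hsd) hsd] at h1
    have h2 : Complex.sinh (z * (d : ℂ)) * ((Real.sinh d : ℝ) : ℂ)
        = (z * (d : ℂ)) * ((Real.sinh d : ℝ) : ℂ) := by
      rw [h1]; ring
    exact mul_right_cancel₀ hsd h2
  -- differentiate `d ↦ sinh (z d) - z d` at `d = 1`
  have hc : HasDerivAt (fun w : ℂ => Complex.sinh (z * w) - z * w)
      (Complex.cosh (z * 1) * (z * 1) - z * 1) (1 : ℂ) :=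
    (((hasDerivAt_id (1 : ℂ)).const_mul z).csinh).sub ((hasDerivAt_id (1 : ℂ)).const_mul z)
  have hr : HasDerivAt (fun d : ℝ => Complex.sinh (z * (d : ℂ)) - z * (d : ℂ))
      (Complex.cosh (z * 1) * (z * 1) - z * 1) (1 : ℝ) := by
    have hc' : HasDerivAt (fun w : ℂ => Complex.sinh (z * w) - z * w)
        (Complex.cosh (z * 1) * (z * 1) - z * 1) (((1 : ℝ) : ℂ)) := by
      simpa using hc
    exact hc'.comp_ofReal
  have heq : (fun d : ℝ => Complex.sinh (z * (d : ℂ)) - z * (d : ℂ))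
      =ᶠ[nhds (1 : ℝ)] fun _ => (0 : ℂ) := by
    filter_upwards [lt_mem_nhds (show (0 : ℝ) < 1 from one_pos)] with d hd
    rw [key d hd, sub_self]
  have h0 : HasDerivAt (fun d : ℝ => Complex.sinh (z * (d : ℂ)) - z * (d : ℂ)) (0 : ℂ)
      (1 : ℝ) :=
    (hasDerivAt_const (1 : ℝ) (0 : ℂ)).congr_of_eventuallyEq heq
  have hder : Complex.cosh (z * 1) * (z * 1) - z * 1 = 0 := hr.unique h0
  have hc1 : Complex.cosh z = 1 := by
    have h3 : (Complex.cosh z - 1) * z = 0 := by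
      have := hder
      simp only [mul_one] at this
      linear_combination this
    rcases mul_eq_zero.mp h3 with h4 | h4
    · exact sub_eq_zero.mp h4
    · exact absurd h4 hz
  have hsn : Complex.sinh z = z := by
    have := key 1 one_pos
    simpa using this
  have hid := Complex.cosh_sq z
  rw [hc1, hsn] at hid
  have h5 : z ^ 2 = 0 := by linear_combination -hid
  exact hz ((pow_eq_zero_iff (two_ne_zero)).mp h5)

end Fermat.Agent.LT.T6.Inf.H19

end
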