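import Mathlib
import Fermat.Agent.LT.T6.SpecArch
import Fermat.Agent.LT.T6.Inf.Spec
import Fermat.Agent.LT.T6.Inf.H19.SphC

/-!
# Row LT, sub-tower T6inf (helper19): leaf T6inf.10 `SphValuesC`

OFF-MAIN.  Mathlib + `T6/SpecArch.lean` + `T6/Inf/Spec.lean` only.

* `sphR0_zero_cosh19` : `2π · sphR0 0 (cosh t)` is the constant of `A0.MeanValueReal`;
* `sphR1_zero_cosh19` : `sphR1 0 (cosh t) = 1 / cosh (t/2)` (mean value property of the
  holomorphic function `w ↦ 1 / (cosh (t/2) - sinh (t/2) w)` on the unit circle);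
* `sphValuesC19`      : `Inf.SphValuesC`.
-/

set_option autoImplicit false

open MeasureTheory

noncomputable section

namespace Fermat.Agent.LT.T6.Inf.H19

open Fermat.Agent.LT.T6

/-! ## Weight `0` -/

theorem base_pos19 (t u : ℝ) : 0 < Real.cosh t + Real.sinh t * Real.cos u := by
  have h1 : |Real.sinh t * Real.cos u| ≤ |Real.sinh t| := by
    rw [abs_mul]
    calc |Real.sinh t| * |Real.cos u| ≤ |Real.sinh t| * 1 :=
          mul_le_mul_of_nonneg_left (Real.abs_cos_le_one u) (abs_nonneg _)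
      _ = |Real.sinh t| := mul_one _
  have h2 : |Real.sinh t| < Real.cosh t := by
    have ha := Real.sinh_lt_cosh t
    have hb := Real.sinh_lt_cosh (-t)
    rw [Real.sinh_neg, Real.cosh_neg] at hb
    exact abs_lt.mpr ⟨by linarith, ha⟩
  have h3 := neg_abs_le (Real.sinh t * Real.cos u)
  linarith

theorem sphR0_zero_cosh19 {t : ℝ} (ht : 0 < t) :
    ((2 * Real.pi : ℝ) : ℂ) * sphR0 0 (Real.cosh t)
      = ((∫ θ in (0 : ℝ)..(2 * Real.pi),
          (Real.cosh t + Real.sinh t * Real.cos θ) ^ (-(1 / 2 : ℝ)) : ℝ) : ℂ) := by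
  set h : ℝ → ℝ := fun θ => (Real.cosh t + Real.sinh t * Real.cos θ) ^ (-(1 / 2 : ℝ)) with hdef
  have hper : Function.Periodic h (2 * Real.pi) := by
    intro θ
    simp only [hdef, Real.cos_add_two_pi]
  unfold sphR0
  rw [sqrt_cosh_sq_sub_one19 ht]
  have hint : (∫ u in (0 : ℝ)..(2 * Real.pi),
      ((Real.cosh t - Real.cos u * Real.sinh t : ℝ) : ℂ) ^ (-(0 : ℂ) - 1 / 2))
      = ((∫ u in (0 : ℝ)..(2 * Real.pi), h (u + Real.pi) : ℝ) : ℂ) := by
    rw [← intervalIntegral.integral_ofReal]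
    refine intervalIntegral.integral_congr ?_
    intro u _
    have hb : Real.cosh t - Real.cos u * Real.sinh t
        = Real.cosh t + Real.sinh t * Real.cos (u + Real.pi) := by
      rw [Real.cos_add_pi]; ring
    have hpos : 0 ≤ Real.cosh t + Real.sinh t * Real.cos (u + Real.pi) :=
      (base_pos19 t (u + Real.pi)).le
    simp only [hdef]
    rw [Complex.ofReal_cpow hpos, hb]
    congr 1
    push_cast
    ring
  rw [hint, intervalIntegral.integral_comp_add_right (f := h) Real.pi]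
  have hshift : (∫ x in (0 : ℝ) + Real.pi..2 * Real.pi + Real.pi, h x)
      = ∫ x in (0 : ℝ)..(2 * Real.pi), h x := by
    have := hper.intervalIntegral_add_eq ((0 : ℝ) + Real.pi) 0
    have e1 : (0 : ℝ) + Real.pi + 2 * Real.pi = 2 * Real.pi + Real.pi := by ring
    have e2 : (0 : ℝ) + 2 * Real.pi = 2 * Real.pi := by ring
    rw [e1, e2] at this
    exact this
  rw [hshift, ← mul_assoc, ← Complex.ofReal_mul]
  have hpi : (2 * Real.pi) * (1 / (2 * Real.pi)) = 1 := by
    field_simp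
  rw [hpi, Complex.ofReal_one, one_mul]

/-! ## Weight `1` -/

theorem cosh_half19 (t : ℝ) : (Real.cosh t + 1) / 2 = Real.cosh (t / 2) ^ 2 := by
  have h := Real.cosh_two_mul (t / 2)
  have h2 := Real.cosh_sq (t / 2)
  have e : 2 * (t / 2) = t := by ring
  rw [e] at h
  nlinarith

theorem sinh_half19 (t : ℝ) : (Real.cosh t - 1) / 2 = Real.sinh (t / 2) ^ 2 := by
  have h := Real.cosh_two_mul (t / 2)
  have h2 := Real.cosh_sq (t / 2)
  have e : 2 * (t / 2) = t := by ring
  rw [e] at h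
  nlinarith

theorem sinh_double19 (t : ℝ) : Real.sinh t = 2 * Real.sinh (t / 2) * Real.cosh (t / 2) := by
  have h := Real.sinh_two_mul (t / 2)
  have e : 2 * (t / 2) = t := by ring
  rw [e] at h
  exact h

theorem cosh_double19 (t : ℝ) : Real.cosh t = Real.cosh (t / 2) ^ 2 + Real.sinh (t / 2) ^ 2 := by
  have h := Real.cosh_two_mul (t / 2)
  have e : 2 * (t / 2) = t := by ring
  rw [e] at h
  exact h

/-- The mean of `1 / (c - σ e^{iu})` over the unit circle is `1 / c` (`0 ≤ σ < c`). -/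
theorem circle_mean_inv19 {c σ : ℝ} (hσ : 0 ≤ σ) (hc : σ < c) :
    (∫ u in (0 : ℝ)..(2 * Real.pi), (((c : ℂ) - (σ : ℂ) * circleMap 0 1 u)⁻¹ : ℂ))
      = ((2 * Real.pi / c : ℝ) : ℂ) := by
  have hcpos : 0 < c := lt_of_le_of_lt hσ hc
  have hne : ∀ w : ℂ, ‖w‖ ≤ 1 → (c : ℂ) - (σ : ℂ) * w ≠ 0 := by
    intro w hw h0
    have h1 : (c : ℂ) = (σ : ℂ) * w := sub_eq_zero.mp h0
    have h2 : ‖(c : ℂ)‖ = ‖(σ : ℂ) * w‖ := by rw [h1]
    rw [norm_mul, Complex.norm_real, Complex.norm_real, Real.norm_of_nonneg hcpos.le,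
      Real.norm_of_nonneg hσ] at h2
    have : σ * ‖w‖ ≤ σ * 1 := mul_le_mul_of_nonneg_left hw hσ
    linarith
  have hmean := circleAverage_of_differentiable_on_off_countable
    (f := fun w : ℂ => ((c : ℂ) - (σ : ℂ) * w)⁻¹) (c := (0 : ℂ)) (R := (1 : ℝ))
    (s := (∅ : Set ℂ)) Set.countable_empty
    (by
      intro w hw
      have hw' : ‖w‖ ≤ 1 := by
        have := Metric.mem_closedBall.mp hw
        simpa [dist_zero_right] using this
      have : ContinuousAt (fun w : ℂ => ((c : ℂ) - (σ : ℂ) * w)⁻¹) w :=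
        ContinuousAt.inv₀ (by fun_prop) (hne w hw')
      exact this.continuousWithinAt)
    (by
      intro w hw
      have hw' : ‖w‖ ≤ 1 := by
        have := Metric.mem_ball.mp hw.1
        rw [dist_zero_right, abs_one] at this
        exact this.le
      exact DifferentiableAt.inv (by fun_prop) (hne w hw'))
  rw [Real.circleAverage_def] at hmean
  simp only [mul_zero, sub_zero] at hmean
  have hpi : (2 * Real.pi) ≠ 0 := by positivity
  have h3 : (∫ u in (0 : ℝ)..(2 * Real.pi), (((c : ℂ) - (σ : ℂ) * circleMap 0 1 u)⁻¹ : ℂ))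
      = (2 * Real.pi) • ((c : ℂ))⁻¹ := by
    rw [← hmean, smul_smul, mul_inv_cancel₀ hpi, one_smul]
  rw [h3, Complex.real_smul]
  push_cast
  field_simp

theorem re_inv_circle19 (c σ u : ℝ) (hD : c ^ 2 + σ ^ 2 - 2 * c * σ * Real.cos u ≠ 0) :
    ((((c : ℂ) - (σ : ℂ) * circleMap 0 1 u)⁻¹ : ℂ)).re
      = (c - σ * Real.cos u) / (c ^ 2 + σ ^ 2 - 2 * c * σ * Real.cos u) := by
  have hz : (c : ℂ) - (σ : ℂ) * circleMap 0 1 u
      = ((c - σ * Real.cos u : ℝ) : ℂ) + ((-(σ * Real.sin u) : ℝ) : ℂ) * Complex.I := by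
    rw [circleMap_zero]
    have : Complex.exp ((u : ℂ) * Complex.I)
        = (Real.cos u : ℂ) + (Real.sin u : ℂ) * Complex.I := by
      rw [Complex.exp_mul_I, Complex.ofReal_cos, Complex.ofReal_sin]
    rw [this]
    push_cast
    ring
  rw [hz, Complex.inv_re]
  have hns : Complex.normSq (((c - σ * Real.cos u : ℝ) : ℂ)
      + ((-(σ * Real.sin u) : ℝ) : ℂ) * Complex.I)
      = c ^ 2 + σ ^ 2 - 2 * c * σ * Real.cos u := by
    rw [Complex.normSq_add_mul_I]
    have := Real.sin_sq_add_cos_sq u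
    nlinarith
  rw [hns]
  simp only [Complex.add_re, Complex.ofReal_re, Complex.re_ofReal_mul, Complex.I_re, mul_zero,
    add_zero]

theorem sphR1_zero_cosh19 {t : ℝ} (ht : 0 < t) :
    sphR1 0 (Real.cosh t) = ((1 / Real.cosh (t / 2) : ℝ) : ℂ) := by
  set c : ℝ := Real.cosh (t / 2) with hcdef
  set σ : ℝ := Real.sinh (t / 2) with hσdef
  have hcpos : 0 < c := Real.cosh_pos _
  have hσpos : 0 < σ := Real.sinh_pos_iff.mpr (by linarith)
  have hσc : σ < c := Real.sinh_lt_cosh _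
  have hD : ∀ u : ℝ, 0 < c ^ 2 + σ ^ 2 - 2 * c * σ * Real.cos u := by
    intro u
    have h1 : Real.cos u ≤ 1 := Real.cos_le_one u
    have h2 : 0 < c * σ := mul_pos hcpos hσpos
    nlinarith [sq_nonneg (c - σ), sq_pos_of_pos (sub_pos.mpr hσc)]
  unfold sphR1
  rw [sqrt_cosh_sq_sub_one19 ht, cosh_half19, sinh_half19, Real.sqrt_sq hcpos.le,
    Real.sqrt_sq hσpos.le]
  have hint : (∫ u in (0 : ℝ)..(2 * Real.pi),
      ((c - Real.cos u * σ : ℝ) : ℂ) *
        ((Real.cosh t - Real.cos u * Real.sinh t : ℝ) : ℂ) ^ (-(0 : ℂ) - 1))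
      = ((∫ u in (0 : ℝ)..(2 * Real.pi),
          ((((c : ℂ) - (σ : ℂ) * circleMap 0 1 u)⁻¹ : ℂ)).re : ℝ) : ℂ) := by
    rw [← intervalIntegral.integral_ofReal]
    refine intervalIntegral.integral_congr ?_
    intro u _
    simp only []
    rw [re_inv_circle19 c σ u (hD u).ne']
    have e1 : Real.cosh t - Real.cos u * Real.sinh t
        = c ^ 2 + σ ^ 2 - 2 * c * σ * Real.cos u := by
      rw [cosh_double19 t, sinh_double19 t]; ring
    rw [e1]
    have e2 : (-(0 : ℂ) - 1) = -1 := by ring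
    rw [e2, Complex.cpow_neg_one]
    push_cast
    have hDne : ((c : ℂ) ^ 2 + (σ : ℂ) ^ 2 - 2 * (c : ℂ) * (σ : ℂ) * Complex.cos (u : ℂ)) ≠ 0 := by
      have := (hD u).ne'
      have h' : (((c ^ 2 + σ ^ 2 - 2 * c * σ * Real.cos u : ℝ)) : ℂ) ≠ 0 := by
        exact_mod_cast this
      simpa using h'
    field_simp
  have hre : (∫ u in (0 : ℝ)..(2 * Real.pi),
      ((((c : ℂ) - (σ : ℂ) * circleMap 0 1 u)⁻¹ : ℂ)).re)
      = (∫ u in (0 : ℝ)..(2 * Real.pi), (((c : ℂ) - (σ : ℂ) * circleMap 0 1 u)⁻¹ : ℂ)).re := by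
    have hcont : Continuous fun u : ℝ => (((c : ℂ) - (σ : ℂ) * circleMap 0 1 u)⁻¹ : ℂ) := by
      refine Continuous.inv₀ (by fun_prop) ?_
      intro u h0
      have h1 := re_inv_circle19 c σ u (hD u).ne'
      rw [h0, inv_zero, Complex.zero_re] at h1
      have h2 : 0 < (c - σ * Real.cos u) / (c ^ 2 + σ ^ 2 - 2 * c * σ * Real.cos u) := by
        apply div_pos _ (hD u)
        have : σ * Real.cos u ≤ σ * 1 :=
          mul_le_mul_of_nonneg_left (Real.cos_le_one u) hσpos.le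
        linarith
      linarith
    have := Complex.reCLM.intervalIntegral_comp_comm
      (hcont.intervalIntegrable (μ := MeasureTheory.volume) 0 (2 * Real.pi))
    simpa using this
  rw [hint, hre, circle_mean_inv19 hσpos.le hσc, Complex.ofReal_re, ← Complex.ofReal_mul]
  congr 1
  have hpi : (2 * Real.pi) ≠ 0 := by positivity
  field_simp

/-- **T6inf.10** `SphValuesC`. -/
theorem sphValuesC19 : Inf.SphValuesC :=
  ⟨fun _ hd => sphC_zero_cosh19 hd, fun _ ht => sphR0_zero_cosh19 ht,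
    fun _ ht => sphR1_zero_cosh19 ht⟩

end Fermat.Agent.LT.T6.Inf.H19

end
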